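import Fermat.Agent.LubinTate.NormOperator.Norms

/-!
# The subgroup `⟨π⟩ × U ^ (n)`

It contains every norm from the torsion extension of level `n`, its index is the degree of that
extension and the quotient is `(O / π ^ n)ˣ`.
-/

set_option autoImplicit false

noncomputable section

open IsLocalRing

namespace Fermat.Agent.LubinTate

variable {O : Type*} [CommRing O] {π : O} {K : Type*} [Field K] [Algebra O K]

/-- The units congruent to one modulo `π ^ n`. -/
def higherUnits (π : O) (n : ℕ) : Subgroup Oˣ :=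
  (Units.map (Ideal.Quotient.mk (Ideal.span {π ^ n})).toMonoidHom).ker

theorem mem_higherUnits {n : ℕ} {u : Oˣ} :
    u ∈ higherUnits π n ↔ (u : O) - 1 ∈ Ideal.span {π ^ n} := by
  rw [higherUnits, MonoidHom.mem_ker, Units.ext_iff, Units.coe_map, RingHom.toMonoidHom_eq_coe,
    MonoidHom.coe_coe, Units.val_one, ← map_one (Ideal.Quotient.mk (Ideal.span {π ^ n})),
    Ideal.Quotient.mk_eq_mk_iff_sub_mem]

/-- The subgroup `⟨πK⟩ × U ^ (n)` of `Kˣ`. -/
def normTarget (π : O) (πK : Kˣ) (n : ℕ) : Subgroup Kˣ :=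
  Subgroup.zpowers πK ⊔ (higherUnits π n).map (Units.map (algebraMap O K).toMonoidHom)

theorem mem_normTarget {πK : Kˣ} {n : ℕ} {z : Kˣ} : z ∈ normTarget π πK n ↔
    ∃ (m : ℤ) (u : Oˣ), (u : O) - 1 ∈ Ideal.span {π ^ n} ∧
      z = πK ^ m * Units.map (algebraMap O K).toMonoidHom u := by
  rw [normTarget, Subgroup.mem_sup]
  constructor
  · rintro ⟨a, ⟨m, rfl⟩, b, ⟨u, hu, rfl⟩, rfl⟩
    exact ⟨m, u, mem_higherUnits.1 hu, rfl⟩
  · rintro ⟨m, u, hu, rfl⟩
    exact ⟨_, ⟨m, rfl⟩, _, ⟨u, mem_higherUnits.2 hu, rfl⟩, rfl⟩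

variable [IsDomain O] [IsDiscreteValuationRing O] [IsFractionRing O K] (hπ : Irreducible π)
  {πK : Kˣ} (hπK : (πK : K) = algebraMap O K π)
include hπ hπK

/-- Every element of `Kˣ` is a power of `π` times a unit. -/
theorem exists_zpow_mul_unit (z : Kˣ) :
    ∃ (m : ℤ) (u : Oˣ), z = πK ^ m * Units.map (algebraMap O K).toMonoidHom u := by
  obtain ⟨a, b, hb, hab⟩ := IsFractionRing.div_surjective (A := O) (z : K)
  have hb0 : b ≠ 0 := nonZeroDivisors.ne_zero hb
  have ha0 : a ≠ 0 := by
    rintro rfl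
    exact z.ne_zero (by rw [← hab, map_zero, zero_div])
  obtain ⟨i, u, rfl⟩ := IsDiscreteValuationRing.eq_unit_mul_pow_irreducible ha0 hπ
  obtain ⟨j, v, rfl⟩ := IsDiscreteValuationRing.eq_unit_mul_pow_irreducible hb0 hπ
  refine ⟨(i : ℤ) - j, u * v⁻¹, Units.ext ?_⟩
  have hv : algebraMap O K ((v⁻¹ : Oˣ) : O) = (algebraMap O K (v : O))⁻¹ := by
    refine eq_inv_of_mul_eq_one_left ?_
    rw [← map_mul, Units.inv_mul, map_one]
  have hp : algebraMap O K π ≠ 0 := hπK ▸ πK.ne_zero
  rw [← hab, Units.val_mul, Units.val_zpow_eq_zpow_val, hπK, Units.coe_map]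
  simp only [map_mul, map_pow, RingHom.toMonoidHom_eq_coe, MonoidHom.coe_coe, Units.val_mul,
    zpow_sub₀ hp, zpow_natCast, hv]
  have := (map_ne_zero_iff _ (IsFractionRing.injective O K)).2 v.ne_zero
  field_simp

omit [IsDomain O] [IsDiscreteValuationRing O] in
/-- A power of `π` is a unit only for exponent zero. -/
theorem zpow_ne_unit {m : ℤ} {u : Oˣ} (h : πK ^ m = Units.map (algebraMap O K).toMonoidHom u) :
    m = 0 := by
  have hnat : ∀ (j : ℕ) (v : Oˣ), πK ^ j = Units.map (algebraMap O K).toMonoidHom v → j = 0 := by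
    intro j v hv
    by_contra hj
    have hv' := congrArg Units.val hv
    rw [Units.val_pow_eq_pow_val, hπK, Units.coe_map, ← map_pow] at hv'
    have : π ^ j = (v : O) := IsFractionRing.injective O K hv'
    exact hπ.not_isUnit ((isUnit_pow_iff hj).1 (this ▸ v.isUnit))
  rcases Int.eq_nat_or_neg m with ⟨j, rfl | rfl⟩
  · rw [zpow_natCast] at h
    simp [hnat j u h]
  · rw [zpow_neg, zpow_natCast, inv_eq_iff_eq_inv, ← map_inv] at h
    simp [hnat j u⁻¹ h]

/-- The quotient by the subgroup is `(O / π ^ n)ˣ`. -/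
theorem nonempty_quotient_normTarget (k : ℕ) :
    Nonempty (Kˣ ⧸ normTarget π πK (k + 1) ≃* (O ⧸ Ideal.span {π ^ (k + 1)})ˣ) := by
  set ι := Units.map (algebraMap O K).toMonoidHom
  set θ : Oˣ →* Kˣ ⧸ normTarget π πK (k + 1) := (QuotientGroup.mk' _).comp ι
  have hθ : Function.Surjective θ := by
    intro x
    obtain ⟨z, rfl⟩ := QuotientGroup.mk_surjective x
    obtain ⟨m, u, rfl⟩ := exists_zpow_mul_unit hπ hπK z
    refine ⟨u, (QuotientGroup.eq).2 ?_⟩
    change (ι u)⁻¹ * (πK ^ m * ι u) ∈ _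
    rw [mul_comm (πK ^ m), inv_mul_cancel_left]
    exact mem_normTarget.2 ⟨m, 1, by simp, by simp⟩
  have hker : θ.ker = higherUnits π (k + 1) := by
    ext u
    rw [MonoidHom.mem_ker, MonoidHom.comp_apply, QuotientGroup.mk'_apply,
      QuotientGroup.eq_one_iff, mem_normTarget, mem_higherUnits]
    constructor
    · rintro ⟨m, v, hv, he⟩
      have h0 : πK ^ m = ι (u * v⁻¹) := by rw [map_mul, map_inv, he, mul_inv_cancel_right]
      rw [zpow_ne_unit hπ hπK h0, zpow_zero, one_mul] at he
      have : u = v := Units.ext (IsFractionRing.injective O K (congrArg Units.val he))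
      exact this ▸ hv
    · exact fun h => ⟨0, u, h, by simp [ι]⟩
  have hψ : Function.Surjective
      (Units.map (Ideal.Quotient.mk (Ideal.span {π ^ (k + 1)})).toMonoidHom) :=
    IsLocalRing.surjective_units_map_of_local_ringHom _ Ideal.Quotient.mk_surjective
      (isLocalHom_quotient hπ k)
  exact ⟨(QuotientGroup.quotientKerEquivOfSurjective θ hθ).symm.trans
    ((QuotientGroup.quotientMulEquivOfEq hker).trans
      (QuotientGroup.quotientKerEquivOfSurjective _ hψ))⟩

variable [Finite (ResidueField O)]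

/-- The index of the subgroup is the degree of the torsion extension. -/
theorem index_normTarget (k : ℕ) :
    (normTarget π πK (k + 1)).index = torsionDegree O k := by
  obtain ⟨e⟩ := nonempty_quotient_normTarget hπ hπK k
  rw [Subgroup.index, Nat.card_congr e.toEquiv, card_units_quotient hπ]

variable (k : ℕ) {L : Type*} [Field L] [Algebra K L] [Algebra O L] [IsScalarTower O K L]
  [IsAdicComplete (maximalIdeal O) O] {lam : L} (hlam : IsTorsionGenerator K π k lam)
include hlam

/-- **The norms from the level `k + 1` extension lie in `⟨π⟩ × U ^ (k + 1)`**, and `π` is one. -/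
theorem normGroup_le_normTarget :
    (Units.map (Algebra.norm K (S := L))).range ≤ normTarget π πK (k + 1) ∧
      πK ∈ (Units.map (Algebra.norm K (S := L))).range := by
  refine ⟨?_, ⟨Units.mk0 (-lam) (neg_ne_zero.2 (lam_ne_zero hπ k hlam)), Units.ext ?_⟩⟩
  · rintro _ ⟨x, rfl⟩
    obtain ⟨m, u, hu, he⟩ := exists_norm_eq hπ k hlam (x : L) x.ne_zero
    refine mem_normTarget.2 ⟨m, u, hu, Units.ext ?_⟩
    rw [Units.coe_map, Units.val_mul, Units.val_zpow_eq_zpow_val, hπK, Units.coe_map]
    exact he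
  · rw [Units.coe_map, hπK]
    exact norm_neg_lam hπ k hlam

/-- If the index of the norm group is the degree, the norm group is all of `⟨π⟩ × U ^ (k + 1)`. -/
theorem normGroup_eq_normTarget
    (h : (Units.map (Algebra.norm K (S := L))).range.index = Module.finrank K L) :
    (Units.map (Algebra.norm K (S := L))).range = normTarget π πK (k + 1) := by
  have hle := (normGroup_le_normTarget hπ hπK k hlam).1
  refine le_antisymm hle (Subgroup.relIndex_eq_one.1 ?_)
  have h1 := Subgroup.relIndex_mul_index hle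
  rw [h, index_normTarget hπ hπK, finrank_eq hπ k hlam] at h1
  exact mul_eq_right₀ (torsionDegree_pos hπ k).ne' |>.1 h1

end Fermat.Agent.LubinTate
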