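import Fermat.Agent.LubinTate.NormOperator.Operator

/-!
# Norms from the torsion extensions

The norm of `p (lam)` times `N^[k] p (0)` is `N^[k + 1] p (0)`, so norms of units of the level
`k + 1` extension are `≡ 1` modulo `π ^ (k + 1)` and the norm group lies in the subgroup generated
by `π` and these units.
-/

set_option autoImplicit false

noncomputable section

open Polynomial IsLocalRing

namespace Fermat.Agent.LubinTate

variable {O : Type*} [CommRing O] {π : O} {q : ℕ}

/-- The iterates also grow on the right. -/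
theorem iterPoly_succ' (π : O) (q j : ℕ) :
    iterPoly π q (j + 1) = (iterPoly π q j).comp (basicPoly π q) := by
  induction j with
  | zero => simp [iterPoly]
  | succ j ih =>
    calc iterPoly π q (j + 1 + 1) = (basicPoly π q).comp (iterPoly π q (j + 1)) := rfl
      _ = (basicPoly π q).comp ((iterPoly π q j).comp (basicPoly π q)) := by rw [ih]
      _ = ((basicPoly π q).comp (iterPoly π q j)).comp (basicPoly π q) := (comp_assoc _ _ _).symm
      _ = _ := rfl

variable [IsDomain O] [IsDiscreteValuationRing O] [Finite (ResidueField O)]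
  (hπ : Irreducible π)
include hπ

/-- The norm operator takes level `j + 1` to level `j`. -/
theorem normPoly_level_sub_mem (i j : ℕ) {a b : O[X]}
    (h : a - b ∈ Ideal.span {C π ^ i, iterPoly π (residueCard O) (j + 1)}) :
    normPoly π (residueCard O) a - normPoly π (residueCard O) b ∈
      Ideal.span {C π ^ i, iterPoly π (residueCard O) j} := by
  refine normPoly_sub_mem (isLubinTateBase hπ).two_le ?_
  obtain ⟨c, d, hcd⟩ := Ideal.mem_span_pair.1 h
  rw [← map_sub, ← hcd, map_add, map_mul, map_mul, map_pow, fibreClass_C,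
    ← map_pow (algebraMap O[X] (AdjoinRoot (fibrePoly π (residueCard O)))) (C π),
    iterPoly_succ', fibreClass_comp]
  exact add_mem
    (Ideal.mul_mem_left _ _ (Ideal.mem_map_of_mem _ (Ideal.subset_span (Set.mem_insert _ _))))
    (Ideal.mul_mem_left _ _ (Ideal.mem_map_of_mem _
      (Ideal.subset_span (Set.mem_insert_of_mem _ rfl))))

/-- The norm operator gains a power of `π` while losing a level. -/
theorem normPoly_level_one_mem {i : ℕ} (hi : 1 ≤ i) (j : ℕ) {a : O[X]}
    (h : a - 1 ∈ Ideal.span {C π ^ i, iterPoly π (residueCard O) (j + 1)}) :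
    normPoly π (residueCard O) a - 1 ∈
      Ideal.span {C π ^ (i + 1), iterPoly π (residueCard O) j} := by
  obtain ⟨c, d, hcd⟩ := Ideal.mem_span_pair.1 h
  have h2 : normPoly π (residueCard O) a - normPoly π (residueCard O) (1 + C π ^ i * c) ∈
      Ideal.span {iterPoly π (residueCard O) j} := by
    refine normPoly_sub_mem (isLubinTateBase hπ).two_le ?_
    rw [← map_sub, show a - (1 + C π ^ i * c) = d * iterPoly π (residueCard O) (j + 1) by
      linear_combination -hcd, map_mul, iterPoly_succ', fibreClass_comp]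
    exact Ideal.mul_mem_left _ _ (Ideal.mem_map_of_mem _ (Ideal.mem_span_singleton_self _))
  have h3 := normPoly_one_add_mem hπ hi c
  rw [← sub_add_sub_cancel _ (normPoly π (residueCard O) (1 + C π ^ i * c)) 1]
  exact add_mem (Ideal.span_mono (by simp) h2) (Ideal.span_mono (by simp) h3)

/-- A polynomial with unit constant coefficient is invertible modulo `π ^ i` and any level. -/
theorem exists_mul_sub_one_mem {a : O[X]} (ha : IsUnit (a.coeff 0)) (i j : ℕ) :
    ∃ w : O[X], a * w - 1 ∈ Ideal.span {C π ^ i, iterPoly π (residueCard O) j} := by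
  set J := Ideal.span {C π ^ i, iterPoly π (residueCard O) j}
  have hq := (isLubinTateBase hπ).two_le
  obtain ⟨z, hz⟩ : C π ∣ iterPoly π (residueCard O) j - X ^ residueCard O ^ j := by
    rw [C_dvd_iff_dvd_coeff]
    intro t
    rw [← Ideal.mem_span_singleton, ← Ideal.Quotient.eq_zero_iff_mem, ← coeff_map,
      Polynomial.map_sub, Polynomial.map_pow, map_X, (monic_iterPoly hq j).2.1, sub_self,
      coeff_zero]
  have hg : Ideal.Quotient.mk J (iterPoly π (residueCard O) j) = 0 :=
    Ideal.Quotient.eq_zero_iff_mem.2 (Ideal.subset_span (Set.mem_insert_of_mem _ rfl))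
  have hπi : Ideal.Quotient.mk J (C π ^ i) = 0 :=
    Ideal.Quotient.eq_zero_iff_mem.2 (Ideal.subset_span (Set.mem_insert _ _))
  have hX : IsNilpotent (Ideal.Quotient.mk J X) := by
    refine ⟨residueCard O ^ j * i, ?_⟩
    have hXq : Ideal.Quotient.mk J (X ^ residueCard O ^ j) =
        Ideal.Quotient.mk J (C π * -z) := by
      rw [Ideal.Quotient.mk_eq_mk_iff_sub_mem,
        show X ^ residueCard O ^ j - C π * -z = iterPoly π (residueCard O) j by
          linear_combination -hz]
      exact Ideal.subset_span (Set.mem_insert_of_mem _ rfl)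
    rw [pow_mul, ← map_pow, hXq, ← map_pow, mul_pow, map_mul, hπi, zero_mul]
  have hnil : IsNilpotent (Ideal.Quotient.mk J (X * a.divX)) := by
    rw [map_mul]
    exact (Commute.all _ _).isNilpotent_mul_right hX
  have hu : IsUnit (Ideal.Quotient.mk J a) := by
    rw [← X_mul_divX_add a, map_add]
    exact hnil.isUnit_add_right_of_commute ((ha.map C).map _) (Commute.all _ _)
  obtain ⟨w, hw⟩ := hu.exists_right_inv
  obtain ⟨w, rfl⟩ := Ideal.Quotient.mk_surjective w
  exact ⟨w, (Ideal.Quotient.mk_eq_mk_iff_sub_mem _ _).1 (by rw [map_mul, hw, map_one])⟩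

/-- The constant coefficient is unchanged modulo `π`. -/
theorem iterate_normPoly_coeff_zero (a : O[X]) (m : ℕ) :
    π ∣ ((⇑(normPoly π (residueCard O)))^[m] a).coeff 0 - a.coeff 0 := by
  induction m with
  | zero => simp
  | succ m ih =>
    rw [Function.iterate_succ_apply', ← sub_add_sub_cancel _
      (((⇑(normPoly π (residueCard O)))^[m] a).coeff 0)]
    refine dvd_add ?_ ih
    rw [← coeff_sub]
    exact C_dvd_iff_dvd_coeff _ _ |>.1
      (Ideal.mem_span_singleton.1 (normPoly_sub_self_mem hπ _)) 0

/-- **Coleman's congruence**: `N^[k + 1] a (0) ≡ N^[k] a (0)` modulo `π ^ (k + 1)`. -/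
theorem coleman_congruence {a : O[X]} (ha : IsUnit (a.coeff 0)) (k : ℕ) :
    π ^ (k + 1) ∣ ((⇑(normPoly π (residueCard O)))^[k + 1] a).coeff 0 -
      ((⇑(normPoly π (residueCard O)))^[k] a).coeff 0 := by
  set N := normPoly π (residueCard O)
  set g := iterPoly π (residueCard O)
  obtain ⟨w, hw⟩ := exists_mul_sub_one_mem hπ ha (k + 1) (k + 1)
  have hone : ∀ m, (⇑N)^[m] 1 = 1 := fun m => iterate_map_one N m
  have hA : ∀ m, m ≤ k + 1 → (⇑N)^[m] (a * w) - 1 ∈
      Ideal.span {C π ^ (k + 1), g (k + 1 - m)} := by
    intro m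
    induction m with
    | zero => intro _; simpa using hw
    | succ m ih =>
      intro hm
      rw [Function.iterate_succ_apply', ← map_one N]
      refine normPoly_level_sub_mem hπ _ _ ?_
      rw [show k + 1 - (m + 1) + 1 = k + 1 - m by omega]
      exact ih (by omega)
  have hu : N a * w - 1 ∈ Ideal.span {C π ^ 1, g (k + 1)} := by
    rw [show N a * w - 1 = (N a - a) * w + (a * w - 1) by ring, pow_one]
    refine add_mem (Ideal.mul_mem_right _ _
      (Ideal.span_mono (by simp) (normPoly_sub_self_mem hπ a))) ?_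
    refine Ideal.span_le.2 (Set.insert_subset_iff.2 ⟨?_, ?_⟩) hw
    · rw [SetLike.mem_coe, pow_succ]
      exact Ideal.mul_mem_left _ _ (Ideal.subset_span (Set.mem_insert _ _))
    · exact Set.singleton_subset_iff.2 (Ideal.subset_span (Set.mem_insert_of_mem _ rfl))
  have hB : ∀ m, m ≤ k → (⇑N)^[m] (N a * w) - 1 ∈
      Ideal.span {C π ^ (m + 1), g (k + 1 - m)} := by
    intro m
    induction m with
    | zero => intro _; simpa using hu
    | succ m ih =>
      intro hm
      rw [Function.iterate_succ_apply']
      refine normPoly_level_one_mem hπ (by omega) _ ?_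
      rw [show k + 1 - (m + 1) + 1 = k + 1 - m by omega]
      exact ih (by omega)
  have h1 := hA k (by omega)
  have h2 := hB k le_rfl
  rw [iterate_map_mul] at h1 h2
  rw [← Function.iterate_succ_apply, show k + 1 - k = 1 by omega] at h2
  rw [show k + 1 - k = 1 by omega] at h1
  have hev : ∀ {c : O[X]}, c ∈ Ideal.span {C π ^ (k + 1), g 1} → π ^ (k + 1) ∣ c.eval 0 := by
    intro c hc
    obtain ⟨x, y, rfl⟩ := Ideal.mem_span_pair.1 hc
    refine ⟨x.eval 0, ?_⟩
    have h0 : (g 1).eval 0 = 0 := by
      rw [← coeff_zero_eq_eval_zero]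
      exact (monic_iterPoly (isLubinTateBase hπ).two_le 1).2.2.1
    simp [h0, mul_comm]
  have d1 := hev h1
  have d2 := hev h2
  simp only [eval_sub, eval_mul, eval_one] at d1 d2
  rw [coeff_zero_eq_eval_zero, coeff_zero_eq_eval_zero]
  obtain ⟨x, hx⟩ := d1
  obtain ⟨y, hy⟩ := d2
  exact ⟨((⇑N)^[k] a).eval 0 * y - ((⇑N)^[k + 1] a).eval 0 * x, by
    linear_combination (((⇑N)^[k] a).eval 0) * hy - (((⇑N)^[k + 1] a).eval 0) * hx⟩

variable (k : ℕ) {K : Type*} [Field K] [Algebra O K] [IsFractionRing O K] {L : Type*} [Field L]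
  [Algebra K L] [Algebra O L] [IsScalarTower O K L] [IsAdicComplete (maximalIdeal O) O]
  {lam : L} (hlam : IsTorsionGenerator K π k lam)
include hlam

/-- The levels split into distinct roots in `L`. -/
theorem roots_iterPoly {j : ℕ} (hj : j ≤ k + 1) :
    ((iterPoly π (residueCard O) j).map (algebraMap O L)).Splits ∧
      ((iterPoly π (residueCard O) j).map (algebraMap O L)).roots.Nodup ∧
      ((iterPoly π (residueCard O) j).map (algebraMap O L)).roots.card = residueCard O ^ j := by
  classical
  have hq := (isLubinTateBase hπ).two_le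
  have := nontrivial_quotient hπ
  obtain ⟨heq, hc, hsf⟩ := isSplittingField_torsion hπ k hlam
  set G := (iterPoly π (residueCard O) (k + 1)).map (algebraMap O L) with hG
  have hGK : ((iterPoly π (residueCard O) (k + 1)).map (algebraMap O K)).map (algebraMap K L) =
      G := by
    rw [hG, Polynomial.map_map, ← IsScalarTower.algebraMap_eq]
  have hGs : G.Splits := hGK ▸ hsf.splits'
  have hGne : G ≠ 0 := ((monic_iterPoly hq (k + 1)).1.map _).ne_zero
  have hGd : G.natDegree = residueCard O ^ (k + 1) := by
    rw [hG, (monic_iterPoly hq (k + 1)).1.natDegree_map, natDegree_iterPoly hq]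
  have hGn : G.roots.Nodup := by
    rw [← Multiset.toFinset_card_eq_card_iff_nodup, ← hGs.natDegree_eq_card_roots, hGd, ← hc,
      ← heq, Nat.card_coe_set_eq, rootSet_def, aroots_def, hGK, Set.ncard_coe_finset]
  have hdvd : (iterPoly π (residueCard O) j).map (algebraMap O L) ∣ G :=
    Polynomial.map_dvd _ (iterPoly_dvd (by omega) hj)
  have hs := hGs.of_dvd hGne hdvd
  refine ⟨hs, Multiset.nodup_of_le (roots.le_of_dvd hGne hdvd) hGn, ?_⟩
  rw [← hs.natDegree_eq_card_roots, (monic_iterPoly hq j).1.natDegree_map,
    natDegree_iterPoly hq]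

/-- The product over level `j` is the constant coefficient of the iterated norm. -/
theorem prod_roots_iterPoly (j : ℕ) : j ≤ k + 1 → ∀ a : O[X],
    (((iterPoly π (residueCard O) j).map (algebraMap O L)).roots.map fun x => aeval x a).prod =
      algebraMap O L (((⇑(normPoly π (residueCard O)))^[j] a).coeff 0) := by
  classical
  induction j with
  | zero =>
    intro _ a
    simp [iterPoly, ← coeff_zero_eq_aeval_zero']
  | succ j ih =>
    intro hj a
    obtain ⟨-, hn, hc⟩ := roots_iterPoly hπ k hlam (j := j) (by omega)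
    obtain ⟨-, hn', hc'⟩ := roots_iterPoly hπ k hlam hj
    set S := ((iterPoly π (residueCard O) j).map (algebraMap O L)).roots.toFinset with hS
    set T := ((iterPoly π (residueCard O) (j + 1)).map (algebraMap O L)).roots.toFinset with hT
    have hq := (isLubinTateBase hπ).two_le
    have hST : ∀ x ∈ T, aeval x (basicPoly π (residueCard O)) ∈ S := by
      intro x hx
      rw [hT, Multiset.mem_toFinset, mem_roots', IsRoot.def, eval_map, ← aeval_def,
        iterPoly_succ', aeval_comp] at hx
      rw [hS, Multiset.mem_toFinset, mem_roots', IsRoot.def, eval_map, ← aeval_def]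
      exact ⟨((monic_iterPoly hq j).1.map _).ne_zero, hx.2⟩
    set fib := fun η => T.filter fun x => aeval x (basicPoly π (residueCard O)) = η
    have hle : ∀ η, (fib η).card ≤ residueCard O := by
      intro η
      have hd : (basicPoly π (residueCard O)).natDegree = residueCard O := by
        have := nontrivial_quotient hπ
        simpa [iterPoly] using natDegree_iterPoly (π := π) hq 1
      have hm : (basicPoly π (residueCard O)).Monic := by
        simpa [iterPoly] using (monic_iterPoly (π := π) hq 1).1
      have hd' : ((basicPoly π (residueCard O)).map (algebraMap O L)).natDegree =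
          residueCard O := by rw [hm.natDegree_map, hd]
      have hne : (basicPoly π (residueCard O)).map (algebraMap O L) - C η ≠ 0 := fun h => by
        have := congrArg natDegree (sub_eq_zero.1 h)
        rw [hd', natDegree_C] at this
        omega
      have hsub : fib η ⊆
          ((basicPoly π (residueCard O)).map (algebraMap O L) - C η).roots.toFinset := by
        intro x hx
        rw [Multiset.mem_toFinset, mem_roots hne, IsRoot.def, eval_sub, eval_C, eval_map,
          ← aeval_def, (Finset.mem_filter.1 hx).2, sub_self]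
      refine (Finset.card_le_card hsub).trans ((Multiset.toFinset_card_le _).trans
        ((card_roots' _).trans ?_))
      rw [natDegree_sub_C, hd']
    have hTc : T.card = residueCard O ^ (j + 1) := by
      rw [hT, Multiset.toFinset_card_of_nodup hn', hc']
    have hSc : S.card = residueCard O ^ j := by
      rw [hS, Multiset.toFinset_card_of_nodup hn, hc]
    have heq : ∀ η ∈ S, (fib η).card = residueCard O := by
      refine (Finset.sum_eq_sum_iff_of_le fun η _ => hle η).1 ?_
      rw [← Finset.card_eq_sum_card_fiberwise (s := T) (t := S) hST, hTc, Finset.sum_const, hSc,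
        smul_eq_mul, pow_succ]
    have hprod : ∀ η ∈ S, ∏ x ∈ fib η, aeval x a = aeval η (normPoly π (residueCard O) a) := by
      intro η hη
      set e := ((fib η).equivFin.trans (finCongr (heq η hη))).symm
      rw [aeval_normPoly hq η (fun i => (e i : L)) (fun i i' h => e.injective (Subtype.ext h))
        (fun i => (Finset.mem_filter.1 (e i).2).2), ← Finset.prod_coe_sort]
      exact (e.prod_comp fun x => aeval (x : L) a).symm
    calc _ = ∏ x ∈ T, aeval x a := by
          rw [Finset.prod, hT, Multiset.toFinset_val, hn'.dedup]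
      _ = ∏ η ∈ S, ∏ x ∈ fib η, aeval x a := (Finset.prod_fiberwise_of_maps_to hST _).symm
      _ = ∏ η ∈ S, aeval η (normPoly π (residueCard O) a) := Finset.prod_congr rfl hprod
      _ = _ := by
          rw [Finset.prod, hS, Multiset.toFinset_val, hn.dedup, ih (by omega),
            ← Function.iterate_succ_apply]

/-- The norm from `L` through the norm operator. -/
theorem norm_aeval_mul (a : O[X]) :
    algebraMap K L (Algebra.norm K (aeval lam a)) *
        algebraMap O L (((⇑(normPoly π (residueCard O)))^[k] a).coeff 0) =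
      algebraMap O L (((⇑(normPoly π (residueCard O)))^[k + 1] a).coeff 0) := by
  classical
  have hfd := finiteDimensional hπ k hlam
  obtain ⟨hgal, -⟩ := galois_torsion hπ k hlam
  rw [← prod_roots_iterPoly hπ k hlam k (by omega) a,
    ← prod_roots_iterPoly hπ k hlam (k + 1) le_rfl a]
  obtain ⟨-, hn, -⟩ := roots_iterPoly hπ k hlam (j := k + 1) le_rfl
  have hq := (isLubinTateBase hπ).two_le
  have hmul : (iterPoly π (residueCard O) (k + 1)).map (algebraMap O L) =
      (iterPoly π (residueCard O) k).map (algebraMap O L) *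
        (torsionPoly π k).map (algebraMap O L) := by
    rw [iterPoly_succ (by omega), Polynomial.map_mul]
  have hne : (iterPoly π (residueCard O) k).map (algebraMap O L) *
      (torsionPoly π k).map (algebraMap O L) ≠ 0 :=
    mul_ne_zero ((monic_iterPoly hq k).1.map _).ne_zero
      ((torsionPoly_facts hπ k).1.map _).ne_zero
  rw [hmul, roots_mul hne] at hn
  rw [hmul, roots_mul hne, Multiset.map_add, Multiset.prod_add, mul_comm]
  congr 1
  have himg : Finset.univ.image (fun σ : L ≃ₐ[K] L => σ lam) =
      ((torsionPoly π k).map (algebraMap O L)).roots.toFinset := by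
    refine Finset.eq_of_subset_of_card_le ?_ ?_
    · intro x hx
      obtain ⟨σ, -, rfl⟩ := Finset.mem_image.1 hx
      rw [Multiset.mem_toFinset, mem_roots', IsRoot.def, eval_map, ← aeval_def]
      refine ⟨((torsionPoly_facts hπ k).1.map _).ne_zero, ?_⟩
      change aeval ((σ.toAlgHom.restrictScalars O) lam) (torsionPoly π k) = 0
      rw [aeval_algHom_apply, hlam.aeval_eq, map_zero]
    · rw [Finset.card_image_of_injective, Finset.card_univ, ← Nat.card_eq_fintype_card,
        IsGalois.card_aut_eq_finrank, finrank_eq hπ k hlam]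
      · refine (Multiset.toFinset_card_le _).trans ((card_roots' _).trans ?_)
        rw [(torsionPoly_facts hπ k).1.natDegree_map, (torsionPoly_facts hπ k).2.1]
      · exact fun σ τ h => AlgEquiv.coe_toAlgHom_injective
          ((torsionBasis hπ k hlam).algHom_ext h)
  rw [Algebra.norm_eq_prod_automorphisms, ← (Multiset.nodup_add.1 hn).2.1.dedup,
    ← Multiset.toFinset_val, ← himg]
  change _ = (Finset.univ.image fun σ : L ≃ₐ[K] L => σ lam).prod fun x => aeval x a
  rw [Finset.prod_image (g := fun σ : L ≃ₐ[K] L => σ lam) fun σ _ τ _ h =>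
    AlgEquiv.coe_toAlgHom_injective ((torsionBasis hπ k hlam).algHom_ext h)]
  refine Finset.prod_congr rfl fun σ _ => ?_
  exact (aeval_algHom_apply (σ.toAlgHom.restrictScalars O) lam a).symm

/-- **Norms of units of level `k + 1` are one modulo `π ^ (k + 1)`.** -/
theorem norm_unit_congruence {a : O[X]} (ha : IsUnit (a.coeff 0)) :
    ∃ u : Oˣ, Algebra.norm K (aeval lam a) = algebraMap O K u ∧
      (u : O) - 1 ∈ Ideal.span {π ^ (k + 1)} := by
  set x := ((⇑(normPoly π (residueCard O)))^[k + 1] a).coeff 0
  set y := ((⇑(normPoly π (residueCard O)))^[k] a).coeff 0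
  have hunit : ∀ m, IsUnit (((⇑(normPoly π (residueCard O)))^[m] a).coeff 0) := by
    intro m
    by_contra h
    rw [← mem_nonunits_iff, ← IsLocalRing.mem_maximalIdeal, hπ.maximalIdeal_eq,
      Ideal.mem_span_singleton] at h
    have := dvd_sub h (iterate_normPoly_coeff_zero hπ a m)
    rw [sub_sub_cancel] at this
    exact hπ.not_isUnit (isUnit_of_dvd_unit this ha)
  obtain ⟨vy, hvy⟩ := hunit k
  obtain ⟨vx, hvx⟩ := hunit (k + 1)
  refine ⟨vx * vy⁻¹, ?_, ?_⟩
  · have h := norm_aeval_mul hπ k hlam a
    rw [← hvx, ← hvy, IsScalarTower.algebraMap_apply O K L (vy : O),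
      IsScalarTower.algebraMap_apply O K L (vx : O), ← map_mul] at h
    have h' := (algebraMap K L).injective h
    rw [Units.val_mul, map_mul, ← h', mul_assoc, ← map_mul, Units.mul_inv, map_one, mul_one]
  · rw [Ideal.mem_span_singleton, Units.val_mul,
      show (vx : O) * ↑vy⁻¹ - 1 = ((vx : O) - vy) * ↑vy⁻¹ by rw [sub_mul, Units.mul_inv]]
    exact Dvd.dvd.mul_right (by rw [hvx, hvy]; exact coleman_congruence hπ ha k) _

/-- **The norm group lies in `⟨π⟩ × U ^ (k + 1)`.** -/
theorem exists_norm_eq (x : L) (hx : x ≠ 0) :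
    ∃ (m : ℤ) (u : Oˣ), (u : O) - 1 ∈ Ideal.span {π ^ (k + 1)} ∧
      Algebra.norm K x = algebraMap O K π ^ m * algebraMap O K u := by
  have hfd := finiteDimensional hπ k hlam
  obtain ⟨m, h, hh, rfl⟩ := exists_unit_mul_zpow hπ k hlam hx
  -- move the sign into the unit
  obtain ⟨s, hs, hsm⟩ : ∃ s : O, IsUnit s ∧ lam ^ m = algebraMap O L s * (-lam) ^ m := by
    refine ⟨((-1 : Oˣ) ^ m : Oˣ), Units.isUnit _, ?_⟩
    have h1 : algebraMap O L (((-1 : Oˣ) ^ m : Oˣ) : O) = (-1 : L) ^ m := by
      rcases m with t | t <;> simp [zpow_negSucc, ← inv_pow]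
    rw [h1, ← mul_zpow, neg_one_mul, neg_neg]
  obtain ⟨p, c, hc⟩ := exists_poly_dvd_sub hπ k (h * PowerSeries.C s)
  have hp : IsUnit (p.coeff 0) := by
    have h0 := congrArg (PowerSeries.constantCoeff (R := O)) hc
    rw [map_sub, map_mul, map_mul, PowerSeries.constantCoeff_C, constantCoeff_coe,
      constantCoeff_coe, (torsionPoly_facts hπ k).2.2.1] at h0
    by_contra hnu
    rw [← mem_nonunits_iff, ← IsLocalRing.mem_maximalIdeal, hπ.maximalIdeal_eq,
      Ideal.mem_span_singleton] at hnu
    refine hπ.not_isUnit (isUnit_of_dvd_unit ?_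
      ((PowerSeries.isUnit_iff_constantCoeff.1 hh).mul hs))
    rw [sub_eq_iff_eq_add'.1 h0]
    exact dvd_add hnu (dvd_mul_right _ _)
  obtain ⟨u, hu, hu1⟩ := norm_unit_congruence hπ k hlam hp
  refine ⟨m, u, hu1, ?_⟩
  have hev : evalAt hπ k hlam h * algebraMap O L s = aeval lam p := by
    rw [← evalAt_coe hπ k hlam p, ← sub_eq_zero, ← Polynomial.aeval_C lam s,
      ← evalAt_coe hπ k hlam (C s), coe_C, ← map_mul, ← map_sub,
      evalAt_eq_zero_iff]
    exact ⟨c, hc⟩
  have hzpow : Algebra.norm K ((-lam) ^ m) = Algebra.norm K (-lam) ^ m := by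
    rcases m with t | t <;> simp [Algebra.norm_inv]
  rw [hsm, ← mul_assoc, hev, map_mul, hzpow, norm_neg_lam hπ k hlam, hu, mul_comm]

end Fermat.Agent.LubinTate
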