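import Fermat.Agent.LubinTate.Torsion.Galois
import Mathlib.LinearAlgebra.Matrix.Charpoly.Coeff
import Mathlib.LinearAlgebra.Matrix.CharP
import Mathlib.LinearAlgebra.Vandermonde
import Mathlib.RingTheory.Norm.Transitivity

/-!
# The norm operator of Coleman

`O[X]` is free over `O[Y]` through `Y = π X + X ^ q`; `normPoly` is the norm. It is the identity
modulo `π`, it turns congruences to one modulo `π ^ i` into congruences modulo `π ^ (i + 1)`, and
its values are the products over the fibres of `X ↦ π X + X ^ q`.
-/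

set_option autoImplicit false

noncomputable section

open Polynomial

namespace Fermat.Agent.LubinTate

section CharP

variable {R : Type*} [CommRing R] [IsDomain R] (p : ℕ) [Fact p.Prime] [CharP R p]

/-- Powers by `p ^ r` are injective on a domain of characteristic `p`. -/
theorem eq_of_pow_char_pow_eq (r : ℕ) {a b : R} (h : a ^ p ^ r = b ^ p ^ r) : a = b :=
  sub_eq_zero.1 (eq_zero_of_pow_eq_zero (n := p ^ r) (by rw [sub_pow_char_pow, h, sub_self]))

/-- A matrix whose `q`th power is scalar has trace zero, for `q` a power of the characteristic. -/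
theorem trace_eq_zero_of_pow_eq_scalar {r m : ℕ} (hr : 1 ≤ r) (hm : m = p ^ r)
    (M : Matrix (Fin m) (Fin m) R) {s : R} (hM : M ^ p ^ r = s • (1 : Matrix _ _ R)) :
    M.trace = 0 := by
  have hp1 : 1 < p ^ r := Nat.one_lt_pow (by omega) (Fact.out : p.Prime).one_lt
  have hdet : Matrix.det (1 + (X : R[X]) • M.map C) = 1 + X ^ p ^ r * C s := by
    refine eq_of_pow_char_pow_eq p r ?_
    have : Nonempty (Fin m) := ⟨⟨0, by omega⟩⟩
    rw [← Matrix.det_pow, add_pow_char_pow_of_commute p r (Commute.one_left _), one_pow, smul_pow,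
      ← Matrix.map_pow M C (p ^ r), hM]
    have h1 : (1 : Matrix (Fin m) (Fin m) R[X]) + (X : R[X]) ^ p ^ r •
        (s • (1 : Matrix (Fin m) (Fin m) R)).map C =
        (1 + X ^ p ^ r * C s) • (1 : Matrix (Fin m) (Fin m) R[X]) := by
      ext i j : 2
      by_cases h : i = j
      · subst h; simp
      · simp [h]
    rw [h1, Matrix.det_smul, Matrix.det_one, mul_one, Fintype.card_fin, hm]
  rw [← Matrix.coeff_det_one_add_X_smul_one, hdet]
  simp [Polynomial.coeff_one]
  intro h
  omega

end CharP

variable {O : Type*} [CommRing O] (π : O) (q : ℕ)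

/-- The polynomial `X ^ q + π X - Y` over `O[Y]`. -/
def fibrePoly : O[X][X] := X ^ q + C (C π) * X - C X

variable {π q}

theorem fibrePoly_facts [Nontrivial O] (hq : 2 ≤ q) :
    (fibrePoly π q).Monic ∧ (fibrePoly π q).natDegree = q := by
  have h : (C (C π) * X - C (X : O[X])).natDegree < q :=
    ((natDegree_sub_le _ _).trans (max_le ((natDegree_C_mul_le _ _).trans natDegree_X_le)
      (by simp))).trans_lt (by omega)
  rw [fibrePoly, add_sub_assoc]
  refine ⟨(monic_X_pow q).add_of_left ?_, ?_⟩
  · rw [degree_X_pow]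
    exact degree_le_natDegree.trans_lt (by exact_mod_cast h)
  · rw [natDegree_add_eq_left_of_natDegree_lt (by rwa [natDegree_X_pow]), natDegree_X_pow]

/-- A polynomial as an element of `O[X]`, seen as an algebra over `O[Y]`. -/
def fibreClass (π : O) (q : ℕ) : O[X] →+* AdjoinRoot (fibrePoly π q) :=
  (AdjoinRoot.mk (fibrePoly π q)).comp (mapRingHom (C : O →+* O[X]))

/-- **The norm operator.** -/
def normPoly (π : O) (q : ℕ) : O[X] →* O[X] :=
  (Algebra.norm O[X]).comp (fibreClass π q).toMonoidHom

theorem fibreClass_C (a : O) :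
    fibreClass π q (C a) = algebraMap O[X] (AdjoinRoot (fibrePoly π q)) (C a) := by
  simp [fibreClass, AdjoinRoot.algebraMap_eq]

theorem fibreClass_X : fibreClass π q X = AdjoinRoot.root (fibrePoly π q) := by
  simp [fibreClass]

/-- `π X + X ^ q` is the variable of the base. -/
theorem fibreClass_comp (a : O[X]) :
    fibreClass π q (a.comp (basicPoly π q)) =
      algebraMap O[X] (AdjoinRoot (fibrePoly π q)) a := by
  have h0 : AdjoinRoot.mk (fibrePoly π q) (fibrePoly π q) = 0 := AdjoinRoot.mk_self
  have hb : fibreClass π q (basicPoly π q) =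
      algebraMap O[X] (AdjoinRoot (fibrePoly π q)) X := by
    rw [AdjoinRoot.algebraMap_eq]
    conv at h0 => lhs; arg 2; rw [fibrePoly]
    rw [map_sub, map_add, map_mul, map_pow, AdjoinRoot.mk_C, AdjoinRoot.mk_C, AdjoinRoot.mk_X,
      sub_eq_zero] at h0
    rw [basicPoly, map_add, map_mul, map_pow, fibreClass_C, fibreClass_X, AdjoinRoot.algebraMap_eq]
    exact h0
  induction a using Polynomial.induction_on' with
  | add a b ha hb' => rw [add_comp, map_add, ha, hb', map_add]
  | monomial n c =>
    rw [← C_mul_X_pow_eq_monomial, mul_comp, C_comp, pow_comp, X_comp, map_mul, map_pow,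
      fibreClass_C, hb, map_mul, map_pow]

/-- The basis `1, X, …, X ^ (q - 1)`. -/
def fibreBasis [Nontrivial O] (hq : 2 ≤ q) :
    Module.Basis (Fin q) O[X] (AdjoinRoot (fibrePoly π q)) :=
  (AdjoinRoot.powerBasis' (fibrePoly_facts (π := π) hq).1).basis.reindex
    (finCongr (fibrePoly_facts (π := π) hq).2)

theorem fibreBasis_apply [Nontrivial O] (hq : 2 ≤ q) (i : Fin q) :
    fibreBasis (π := π) hq i = AdjoinRoot.root (fibrePoly π q) ^ (i : ℕ) := by
  simp [fibreBasis]

/-- The norm operator takes products over fibres. -/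
theorem aeval_normPoly [Nontrivial O] (hq : 2 ≤ q) {A : Type*} [CommRing A] [IsDomain A]
    [Algebra O A] (η : A) (ω : Fin q → A) (hω : Function.Injective ω)
    (hfib : ∀ i, aeval (ω i) (basicPoly π q) = η) (p : O[X]) :
    aeval η (normPoly π q p) = ∏ i, aeval (ω i) p := by
  classical
  set φ : O[X] →+* A := (aeval η).toRingHom with hφ
  set b := fibreBasis (π := π) hq
  set M := Algebra.leftMulMatrix b (fibreClass π q p)
  set V := Matrix.vandermonde ω with hV
  have hlift : ∀ i, (fibrePoly π q).eval₂ φ (ω i) = 0 := by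
    intro i
    have h := hfib i
    rw [basicPoly, map_add, map_mul, map_pow, aeval_X, aeval_C] at h
    simp [fibrePoly, φ, h]
  have hrow : V * M.map φ = Matrix.diagonal (fun i => aeval (ω i) p) * V := by
    ext i j
    rw [Matrix.mul_apply, Matrix.diagonal_mul]
    set e := AdjoinRoot.lift φ (ω i) (hlift i)
    have he : ∀ a, e (fibreClass π q a) = aeval (ω i) a := by
      intro a
      rw [fibreClass, RingHom.comp_apply, AdjoinRoot.lift_mk, coe_mapRingHom, eval₂_map,
        aeval_def]
      congr 1
      ext c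
      simp [φ]
    have hsum := congrArg e (b.sum_repr (fibreClass π q p * b j))
    simp only [b, fibreBasis_apply, map_mul, map_pow, map_sum, Algebra.smul_def,
      AdjoinRoot.algebraMap_eq, e, AdjoinRoot.lift_of, AdjoinRoot.lift_root] at hsum
    rw [show (AdjoinRoot.lift φ (ω i) (hlift i)) (fibreClass π q p) = aeval (ω i) p from he p]
      at hsum
    simp only [hV, Matrix.vandermonde_apply]
    rw [← hsum]
    refine Finset.sum_congr rfl fun t _ => ?_
    rw [Matrix.map_apply, mul_comm]
    refine congrArg (fun z => φ z * ω i ^ (t : ℕ)) ?_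
    refine (Algebra.leftMulMatrix_eq_repr_mul b (fibreClass π q p) t j).trans ?_
    simp [b, fibreBasis_apply]
  have h := congrArg Matrix.det hrow
  rw [Matrix.det_mul, Matrix.det_mul, Matrix.det_diagonal, mul_comm _ V.det] at h
  have hdet : aeval η (normPoly π q p) = (M.map φ).det := by
    rw [← RingHom.mapMatrix_apply, ← RingHom.map_det]
    exact congrArg _ (Algebra.norm_eq_matrix_det b _)
  rw [hdet]
  exact mul_left_cancel₀ (Matrix.det_vandermonde_ne_zero_iff.2 hω) h

theorem leftMulMatrix_mem {S : Type*} [CommRing S] [Algebra O[X] S] {ι : Type*} [Fintype ι]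
    [DecidableEq ι] (b : Module.Basis ι O[X] S) {I : Ideal O[X]} {z : S}
    (h : z ∈ I.map (algebraMap O[X] S)) (i j : ι) : Algebra.leftMulMatrix b z i j ∈ I := by
  revert i j
  rw [Ideal.map] at h
  induction h using Submodule.span_induction with
  | mem x hx =>
    obtain ⟨g, hg, rfl⟩ := hx
    intro i j
    rw [AlgHom.commutes, Matrix.algebraMap_matrix_apply]
    split_ifs
    · exact hg
    · exact zero_mem _
  | zero => intro i j; simp
  | add x y _ _ hx hy =>
    intro i j
    rw [map_add, Matrix.add_apply]
    exact add_mem (hx i j) (hy i j)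
  | smul c x _ hx =>
    intro i j
    rw [smul_eq_mul, map_mul, Matrix.mul_apply]
    exact sum_mem fun t _ => Ideal.mul_mem_left _ _ (hx t j)

/-- Congruent arguments have congruent norms. -/
theorem normPoly_sub_mem [Nontrivial O] (hq : 2 ≤ q) {I : Ideal O[X]} {a b : O[X]}
    (h : fibreClass π q a - fibreClass π q b ∈ I.map (algebraMap O[X] _)) :
    normPoly π q a - normPoly π q b ∈ I := by
  rw [← Ideal.Quotient.mk_eq_mk_iff_sub_mem]
  set β := fibreBasis (π := π) hq
  change Ideal.Quotient.mk I (Algebra.norm O[X] (fibreClass π q a)) =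
    Ideal.Quotient.mk I (Algebra.norm O[X] (fibreClass π q b))
  rw [Algebra.norm_eq_matrix_det β, Algebra.norm_eq_matrix_det β, RingHom.map_det,
    RingHom.map_det]
  refine congrArg Matrix.det (Matrix.ext fun i j => ?_)
  rw [RingHom.mapMatrix_apply, RingHom.mapMatrix_apply, Matrix.map_apply, Matrix.map_apply,
    Ideal.Quotient.mk_eq_mk_iff_sub_mem, ← Matrix.sub_apply, ← map_sub]
  exact leftMulMatrix_mem β h i j

section Residue

open IsLocalRing

variable [IsDomain O] [IsDiscreteValuationRing O] [Finite (ResidueField O)]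

omit [Finite (ResidueField O)] in
theorem mem_span_C_iff (hπ : Irreducible π) (a : O[X]) :
    a ∈ Ideal.span {C π} ↔ a.map (residue O) = 0 := by
  rw [Ideal.mem_span_singleton, C_dvd_iff_dvd_coeff, Polynomial.ext_iff]
  simp only [coeff_map, coeff_zero, residue_eq_zero_iff, hπ.maximalIdeal_eq,
    Ideal.mem_span_singleton]

theorem charP_residueField {p r : ℕ} (hp : p.Prime)
    (hq : residueCard O = p ^ r) : CharP (ResidueField O) p := by
  let := Fintype.ofFinite (ResidueField O)
  obtain ⟨p', hp'⟩ := CharP.exists (ResidueField O)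
  obtain ⟨n, hp'', hn⟩ := FiniteField.card (ResidueField O) p'
  rw [residueCard, Nat.card_eq_fintype_card, hn] at hq
  have h : p' ∣ p ^ r := hq ▸ dvd_pow_self p' n.pos.ne'
  rwa [← (Nat.prime_dvd_prime_iff_eq hp'' hp).1 (hp''.dvd_of_dvd_pow h)]

/-- The `q`th power of an element is scalar modulo `π`. -/
theorem pow_sub_mem (hπ : Irreducible π) (a : O[X]) :
    fibreClass π (residueCard O) a ^ residueCard O -
        algebraMap O[X] (AdjoinRoot (fibrePoly π (residueCard O))) a ∈
      (Ideal.span {C π}).map (algebraMap O[X] (AdjoinRoot (fibrePoly π (residueCard O)))) := by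
  let := Fintype.ofFinite (ResidueField O)
  rw [← fibreClass_comp a, ← map_pow, ← map_sub]
  have hmem : a ^ residueCard O - a.comp (basicPoly π (residueCard O)) ∈ Ideal.span {C π} := by
    rw [mem_span_C_iff hπ, Polynomial.map_sub, Polynomial.map_pow, Polynomial.map_comp, basicPoly,
      Polynomial.map_add, Polynomial.map_mul, Polynomial.map_pow, map_X, map_C,
      (residue_eq_zero_iff π).2 (by rw [hπ.maximalIdeal_eq]; exact
        Ideal.mem_span_singleton_self π), map_zero, zero_mul, add_zero, residueCard,
      Nat.card_eq_fintype_card, ← FiniteField.expand_card, ← expand_eq_comp_X_pow, sub_self]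
  obtain ⟨c, hc⟩ := Ideal.mem_span_singleton'.1 hmem
  rw [← hc, map_mul, fibreClass_C]
  exact Ideal.mul_mem_left _ _ (Ideal.mem_map_of_mem _ (Ideal.mem_span_singleton_self _))

/-- The matrix of an element modulo `π` has scalar `q`th power. -/
theorem leftMulMatrix_pow (hπ : Irreducible π) (a : O[X]) :
    ((Algebra.leftMulMatrix (fibreBasis (π := π) (isLubinTateBase hπ).two_le)
        (fibreClass π (residueCard O) a)).map (mapRingHom (residue O))) ^ residueCard O =
      a.map (residue O) • (1 : Matrix _ _ (ResidueField O)[X]) := by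
  set β := fibreBasis (π := π) (isLubinTateBase hπ).two_le
  obtain ⟨z, hz⟩ : ∃ z, fibreClass π (residueCard O) a ^ residueCard O =
      algebraMap O[X] (AdjoinRoot (fibrePoly π (residueCard O))) a +
        algebraMap O[X] (AdjoinRoot (fibrePoly π (residueCard O))) (C π) * z := by
    have h := pow_sub_mem hπ a
    rw [Ideal.map_span, Set.image_singleton, Ideal.mem_span_singleton'] at h
    obtain ⟨z, hz⟩ := h
    exact ⟨z, by rw [mul_comm _ z, hz]; ring⟩
  rw [← RingHom.mapMatrix_apply, ← map_pow, ← map_pow (Algebra.leftMulMatrix β), hz, map_add,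
    map_add, map_mul, map_mul, AlgHom.commutes, AlgHom.commutes]
  have h0 : (mapRingHom (residue O)).mapMatrix (algebraMap O[X] (Matrix _ _ O[X]) (C π) :
      Matrix (Fin (residueCard O)) (Fin (residueCard O)) O[X]) = 0 := by
    ext i j : 2
    rw [RingHom.mapMatrix_apply, Matrix.map_apply, Matrix.algebraMap_matrix_apply]
    split_ifs
    · simp [(residue_eq_zero_iff π).2 (show π ∈ maximalIdeal O by
        rw [hπ.maximalIdeal_eq]; exact Ideal.mem_span_singleton_self π)]
    · simp
  rw [h0, zero_mul, add_zero]
  ext i j : 2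
  by_cases h : i = j
  · subst h; simp [Matrix.algebraMap_matrix_apply]
  · simp [Matrix.algebraMap_matrix_apply, h]

/-- **The norm operator is the identity modulo `π`.** -/
theorem normPoly_sub_self_mem (hπ : Irreducible π) (a : O[X]) :
    normPoly π (residueCard O) a - a ∈ Ideal.span {C π} := by
  obtain ⟨p, r, hp, hr, hq, -⟩ := (isLubinTateBase hπ).exists_prime_pow
  have := Fact.mk hp
  have := charP_residueField hp hq
  rw [mem_span_C_iff hπ, Polynomial.map_sub, sub_eq_zero]
  refine eq_of_pow_char_pow_eq p r ?_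
  rw [← hq]
  have h := congrArg Matrix.det (leftMulMatrix_pow hπ a)
  rw [Matrix.det_pow, Matrix.det_smul, Matrix.det_one, mul_one, Fintype.card_fin,
    ← RingHom.mapMatrix_apply, ← RingHom.map_det] at h
  rw [← h]
  exact congrArg (fun t => (mapRingHom (residue O)) t ^ residueCard O)
    (Algebra.norm_eq_matrix_det _ _)

/-- **The norm operator raises congruences to one.** -/
theorem normPoly_one_add_mem (hπ : Irreducible π) {i : ℕ} (hi : 1 ≤ i) (a : O[X]) :
    normPoly π (residueCard O) (1 + C π ^ i * a) - 1 ∈ Ideal.span {C π ^ (i + 1)} := by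
  obtain ⟨p, r, hp, hr, hq, -⟩ := (isLubinTateBase hπ).exists_prime_pow
  have := Fact.mk hp
  have := charP_residueField hp hq
  set β := fibreBasis (π := π) (isLubinTateBase hπ).two_le
  set M := Algebra.leftMulMatrix β (fibreClass π (residueCard O) a)
  have htr : M.trace ∈ Ideal.span {C π} := by
    rw [mem_span_C_iff hπ]
    have h := trace_eq_zero_of_pow_eq_scalar p hr hq (M.map (mapRingHom (residue O)))
      (s := a.map (residue O)) (by rw [← hq]; exact leftMulMatrix_pow hπ a)
    rw [← h]
    simp [Matrix.trace, Polynomial.map_sum]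
  have hM : Algebra.leftMulMatrix β (fibreClass π (residueCard O) (1 + C π ^ i * a)) =
      1 + C π ^ i • M := by
    rw [map_add, map_one, map_mul, map_pow, fibreClass_C, ← map_pow, ← Algebra.smul_def, map_add,
      map_one, map_smul]
  have hnorm : normPoly π (residueCard O) (1 + C π ^ i * a) =
      Matrix.det (1 + C π ^ i • M) := by
    rw [← hM]; exact Algebra.norm_eq_matrix_det _ _
  rw [hnorm, Matrix.det_one_add_smul, add_assoc, add_sub_cancel_left]
  refine add_mem ?_ ?_
  · rw [Ideal.mem_span_singleton, pow_succ', mul_comm _ (C π ^ i), ← mul_comm (C π ^ i)]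
    exact mul_dvd_mul_left _ (Ideal.mem_span_singleton.1 htr)
  · rw [Ideal.mem_span_singleton, ← pow_mul]
    exact (pow_dvd_pow _ (by omega)).mul_left _

end Residue

end Fermat.Agent.LubinTate
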